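/-
S48 / RES (Tower A1), node A1-KUM, leaf `norm` (NormAn1) — part 1 (helper569):
GENERIC ANALYTIC REALISATION.

`qRing`  : the ring of holomorphic functions on `ℍ` having a `q`-expansion at `i∞`
           (`H708.HasQExp 1`);
`epsQ`   : `Frac qRing → ℂ((q))` (the `q`-expansion), `muQ : Frac qRing → MerH` (the function);
`anOf κ` : for a field `F` with a ring homomorphism `κ : F → ℂ((q))` whose values are
           `q`-expansions of quotients of such functions, the analytic realisation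
           `F → MerH = Frac (holomorphic functions)`,  `anOf κ = muQ ∘ epsQ⁻¹ ∘ κ`.

Characterisation (`anOf_eq_div`): if `κ u * qexp b = qexp a` then `anOf κ u = [a] / [b]`.
No modular input: Mathlib + S24 `H708` (`q`-expansions) + S29 `H452.MerGL`.
-/
import Fermat.Agent.S24.Mod.H708QSubst
import Fermat.Agent.S29.H452.MerGL
import Fermat.Prelude.Def_ModularForm_HeckeOperator

set_option autoImplicit false

noncomputable section

open UpperHalfPlane ModularCurve
open scoped MatrixGroups Manifold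

namespace Fermat.Agent.S48.H569

open Fermat.Agent.S24.H624 Fermat.Agent.S24.H708 Fermat.Agent.S29.H452

/-! ### The ring of functions with a `q`-expansion -/

/-- Holomorphic functions on `ℍ` with a `q`-expansion at `i∞` (period `1`). -/
def qRing : Subring holoRing where
  carrier := {f | ∃ φ : LaurentSeries ℂ, HasQExp 1 (f : ℍ → ℂ) φ}
  mul_mem' := by
    rintro f g ⟨φ, hφ⟩ ⟨ψ, hψ⟩
    exact ⟨φ * ψ, hφ.mul hψ⟩
  one_mem' := ⟨1, HasQExp.one 1⟩
  add_mem' := by
    rintro f g ⟨φ, hφ⟩ ⟨ψ, hψ⟩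
    exact ⟨φ + ψ, hφ.add hψ⟩
  zero_mem' := ⟨0, HasQExp.zero 1⟩
  neg_mem' := by
    rintro f ⟨φ, hφ⟩
    exact ⟨-φ, hφ.neg⟩

theorem hasQExp_qRing (f : qRing) :
    HasQExp 1 ((f : holoRing) : ℍ → ℂ) (qexpFun 1 ((f : holoRing) : ℍ → ℂ)) := by
  obtain ⟨φ, hφ⟩ := f.2
  exact HasQExp.of_isMerInf hφ.isMerInf

/-- The element of `qRing` attached to a function with a `q`-expansion. -/
def toQ (G : ℍ → ℂ) {φ : LaurentSeries ℂ} (h : HasQExp 1 G φ) : qRing :=
  ⟨⟨G, h.mdiff⟩, ⟨φ, h⟩⟩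

@[simp] theorem coe_toQ (G : ℍ → ℂ) {φ : LaurentSeries ℂ} (h : HasQExp 1 G φ) :
    (((toQ G h : qRing) : holoRing) : ℍ → ℂ) = G := rfl

/-- The `q`-expansion as a ring homomorphism. -/
def qexpHom : qRing →+* LaurentSeries ℂ where
  toFun f := qexpFun 1 ((f : holoRing) : ℍ → ℂ)
  map_one' := (HasQExp.one 1).qexpFun_eq
  map_mul' f g := ((hasQExp_qRing f).mul (hasQExp_qRing g)).qexpFun_eq
  map_zero' := (HasQExp.zero 1).qexpFun_eq
  map_add' f g := ((hasQExp_qRing f).add (hasQExp_qRing g)).qexpFun_eq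

theorem qexpHom_apply (f : qRing) : qexpHom f = qexpFun 1 ((f : holoRing) : ℍ → ℂ) := rfl

@[simp] theorem qexpHom_toQ (G : ℍ → ℂ) {φ : LaurentSeries ℂ} (h : HasQExp 1 G φ) :
    qexpHom (toQ G h) = φ := h.qexpFun_eq

theorem qexpHom_injective : Function.Injective qexpHom := by
  rw [injective_iff_map_eq_zero]
  intro f hf
  have h0 : ((f : holoRing) : ℍ → ℂ) = 0 := (hasQExp_qRing f).eq_zero_iff.mp hf
  exact Subtype.ext (Subtype.ext h0)

/-- The inclusion `qRing → MerH`. -/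
def inclQ : qRing →+* MerH := (algebraMap holoRing MerH).comp qRing.subtype

theorem inclQ_apply (f : qRing) : inclQ f = algebraMap holoRing MerH (f : holoRing) := rfl

theorem inclQ_injective : Function.Injective inclQ :=
  (IsFractionRing.injective holoRing MerH).comp Subtype.coe_injective

/-- The fraction field of `qRing`. -/
abbrev QF : Type := FractionRing qRing

/-- The `q`-expansion on `Frac qRing`. -/
def epsQ : QF →+* LaurentSeries ℂ := IsFractionRing.lift qexpHom_injective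

/-- The inclusion `Frac qRing → MerH`. -/
def muQ : QF →+* MerH := IsFractionRing.lift inclQ_injective

@[simp] theorem epsQ_algebraMap (f : qRing) : epsQ (algebraMap qRing QF f) = qexpHom f :=
  IsFractionRing.lift_algebraMap qexpHom_injective f

@[simp] theorem muQ_algebraMap (f : qRing) :
    muQ (algebraMap qRing QF f) = algebraMap holoRing MerH (f : holoRing) :=
  IsFractionRing.lift_algebraMap inclQ_injective f

/-! ### The analytic realisation -/

section AnOf

variable {F : Type*} [Field F] (κ : F →+* LaurentSeries ℂ)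

/-- The analytic realisation of a field of `q`-expansions. -/
def anOf (hκ : ∀ x, κ x ∈ epsQ.fieldRange) : F →+* MerH :=
  muQ.comp (((epsQ.rangeRestrictFieldEquiv.symm : ↥epsQ.fieldRange ≃+* QF) :
    ↥epsQ.fieldRange →+* QF).comp (κ.codRestrict epsQ.fieldRange hκ))

theorem anOf_apply (hκ : ∀ x, κ x ∈ epsQ.fieldRange) (u : F) :
    anOf κ hκ u = muQ (epsQ.rangeRestrictFieldEquiv.symm ⟨κ u, hκ u⟩) := rfl

/-- If `κ u = epsQ f` then `anOf κ u = muQ f`. -/
theorem anOf_eq_muQ (hκ : ∀ x, κ x ∈ epsQ.fieldRange) {u : F} {f : QF} (h : epsQ f = κ u) :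
    anOf κ hκ u = muQ f := by
  rw [anOf_apply]
  congr 1
  rw [RingEquiv.symm_apply_eq]
  exact Subtype.ext h.symm

/-- A Laurent series which is a quotient of two `q`-expansions lies in the range of `epsQ`. -/
theorem mem_fieldRange_of_div {x : LaurentSeries ℂ} {a b : ℍ → ℂ} {φa φb : LaurentSeries ℂ}
    (ha : HasQExp 1 a φa) (hb : HasQExp 1 b φb) (hb0 : φb ≠ 0) (h : x * φb = φa) :
    x ∈ epsQ.fieldRange := by
  refine ⟨algebraMap qRing QF (toQ a ha) / algebraMap qRing QF (toQ b hb), ?_⟩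
  rw [map_div₀, epsQ_algebraMap, epsQ_algebraMap, qexpHom_toQ, qexpHom_toQ, ← h,
    mul_div_assoc, div_self hb0, mul_one]

/-- **Characterisation of `anOf`**: if `κ u * qexp b = qexp a` then `anOf κ u = [a] / [b]`. -/
theorem anOf_eq_div (hκ : ∀ x, κ x ∈ epsQ.fieldRange) {u : F} {a b : ℍ → ℂ}
    {φa φb : LaurentSeries ℂ} (ha : HasQExp 1 a φa) (hb : HasQExp 1 b φb) (hb0 : φb ≠ 0)
    (h : κ u * φb = φa) :
    anOf κ hκ u = algebraMap holoRing MerH ⟨a, ha.mdiff⟩ / algebraMap holoRing MerH ⟨b, hb.mdiff⟩ := by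
  have h1 : epsQ (algebraMap qRing QF (toQ a ha) / algebraMap qRing QF (toQ b hb)) = κ u := by
    rw [map_div₀, epsQ_algebraMap, epsQ_algebraMap, qexpHom_toQ, qexpHom_toQ, ← h,
      mul_div_assoc, div_self hb0, mul_one]
  rw [anOf_eq_muQ κ hκ h1, map_div₀, muQ_algebraMap, muQ_algebraMap]
  rfl

/-- `anOf κ u = [G]` if `G` has `q`-expansion `κ u`. -/
theorem anOf_eq_of_hasQExp (hκ : ∀ x, κ x ∈ epsQ.fieldRange) {u : F} {G : ℍ → ℂ}
    (hG : HasQExp 1 G (κ u)) : anOf κ hκ u = algebraMap holoRing MerH ⟨G, hG.mdiff⟩ := by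
  have h1 : epsQ (algebraMap qRing QF (toQ G hG)) = κ u := by
    rw [epsQ_algebraMap, qexpHom_toQ]
  rw [anOf_eq_muQ κ hκ h1, muQ_algebraMap]
  rfl

/-- Every value of `anOf` is a quotient `[a] / [b]` of functions with `q`-expansions. -/
theorem exists_anOf_eq_div (hκ : ∀ x, κ x ∈ epsQ.fieldRange) (u : F) :
    ∃ (a b : ℍ → ℂ) (φa φb : LaurentSeries ℂ) (ha : HasQExp 1 a φa) (hb : HasQExp 1 b φb),
      φb ≠ 0 ∧ κ u * φb = φa ∧
      anOf κ hκ u
        = algebraMap holoRing MerH ⟨a, ha.mdiff⟩ / algebraMap holoRing MerH ⟨b, hb.mdiff⟩ := by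
  obtain ⟨f, hf⟩ := hκ u
  obtain ⟨A, B, hB, rfl⟩ := IsFractionRing.div_surjective (A := qRing) f
  have hB0 : B ≠ 0 := nonZeroDivisors.ne_zero hB
  have hφB : qexpHom B ≠ 0 := fun h0 => hB0 (qexpHom_injective (by rw [h0, map_zero]))
  have hmul : κ u * qexpHom B = qexpHom A := by
    rw [← hf, map_div₀, epsQ_algebraMap, epsQ_algebraMap, div_mul_cancel₀ _ hφB]
  exact ⟨_, _, _, _, hasQExp_qRing A, hasQExp_qRing B, hφB, hmul,
    anOf_eq_div κ hκ (hasQExp_qRing A) (hasQExp_qRing B) hφB hmul⟩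

/-- `muQ` is injective (a ring homomorphism of fields). -/
theorem muQ_injective : Function.Injective muQ := muQ.injective

/-- If `anOf κ u = [G]` and `G` has `q`-expansion `φ`, then `κ u = φ`. -/
theorem kappa_eq_of_anOf_eq (hκ : ∀ x, κ x ∈ epsQ.fieldRange) {u : F} {G : ℍ → ℂ}
    {φ : LaurentSeries ℂ} (hG : HasQExp 1 G φ)
    (h : anOf κ hκ u = algebraMap holoRing MerH ⟨G, hG.mdiff⟩) : κ u = φ := by
  obtain ⟨f, hf⟩ := hκ u
  rw [anOf_eq_muQ κ hκ hf] at h
  have h1 : muQ f = muQ (algebraMap qRing QF (toQ G hG)) := by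
    rw [h, muQ_algebraMap]
    rfl
  have h2 := muQ_injective h1
  rw [← hf, h2, epsQ_algebraMap, qexpHom_toQ]

/-- The value of `anOf` depends only on the value of `κ`. -/
theorem anOf_congr {F' : Type*} [Field F'] (κ' : F' →+* LaurentSeries ℂ)
    (hκ : ∀ x, κ x ∈ epsQ.fieldRange) (hκ' : ∀ x, κ' x ∈ epsQ.fieldRange) {u : F} {v : F'}
    (h : κ' v = κ u) : anOf κ' hκ' v = anOf κ hκ u := by
  obtain ⟨f, hf⟩ := hκ u
  rw [anOf_eq_muQ κ hκ hf, anOf_eq_muQ κ' hκ' (hf.trans h.symm)]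

end AnOf

/-! ### Scaling `τ ↦ p τ` -/

section Scale

variable (p : ℕ) [NeZero p]

theorem det_heckeDiag_pos : 0 < (ModularForm.heckeDiagMatrix p).det.val := by
  have hp : p ≠ 0 := NeZero.ne p
  show 0 < ((ModularForm.heckeDiagMatrix p : GL (Fin 2) ℝ) : Matrix (Fin 2) (Fin 2) ℝ).det
  rw [ModularForm.heckeDiagMatrix, dif_neg hp]
  simp [ModularForm.upperTriangularGL, Matrix.det_fin_two]
  exact_mod_cast Nat.pos_of_ne_zero hp

/-- If `G` has `q`-expansion `φ`, then `τ ↦ G (p τ)` has `q`-expansion `φ(q^p)`. -/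
theorem hasQExp_comp_heckeDiag {G : ℍ → ℂ} {φ : LaurentSeries ℂ} (hG : HasQExp 1 G φ) :
    HasQExp 1 (fun τ => G (ModularForm.heckeDiagMatrix p • τ)) (qExpand ℂ p φ) := by
  have hp : p ≠ 0 := NeZero.ne p
  have h := hG.comp_affine (h' := 1) (a := p) (d := 1) hp one_ne_zero 0 p (by ring)
    (fun τ => ModularForm.heckeDiagMatrix p • τ) (fun τ => by
      rw [ModularForm.coe_heckeDiagMatrix_smul hp]
      push_cast
      ring)
  have h1 : twistFactor 0 1 1 = 1 := by simp [twistFactor]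
  have h2 : twist (twistFactor 0 1 1) (twistFactor_ne_zero 0 1 1) φ = φ := by
    ext n; simp [h1]
  rw [h2] at h
  exact h

/-- The range of `epsQ` is stable under `q ↦ q^p`. -/
theorem qExpand_mem_fieldRange {x : LaurentSeries ℂ} (hx : x ∈ epsQ.fieldRange) :
    qExpand ℂ p x ∈ epsQ.fieldRange := by
  obtain ⟨f, rfl⟩ := hx
  obtain ⟨A, B, hB, rfl⟩ := IsFractionRing.div_surjective (A := qRing) f
  have hB0 : B ≠ 0 := nonZeroDivisors.ne_zero hB
  have hφB : qexpHom B ≠ 0 := fun h0 => hB0 (qexpHom_injective (by rw [h0, map_zero]))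
  have hA := hasQExp_comp_heckeDiag p (hasQExp_qRing A)
  have hB' := hasQExp_comp_heckeDiag p (hasQExp_qRing B)
  refine mem_fieldRange_of_div hA hB' ?_ ?_
  · exact (map_ne_zero (qExpand ℂ p)).mpr hφB
  · rw [map_div₀, epsQ_algebraMap, epsQ_algebraMap, ← map_mul, qexpHom_apply, qexpHom_apply]
    congr 1
    exact div_mul_cancel₀ _ hφB

end Scale

end Fermat.Agent.S48.H569
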