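/-
S48 / RES (Tower A1), node A1-KUM, leaf `norm` (NormAn1) — part 2 (helper569):
the representatives `repA x` as elements of the double coset `Γ₁(M) diag(p,1) Γ₁(M)`.

For every `x ∈ ℙ¹(𝔽_p)` there are `γ_x, δ_x ∈ Γ₁(M)` with
  `diag(p,1) · γ_x = δ_x · repA x`     (`repA x = σ_p⁻¹ · heckeRep1 x`, `Kum/M4b1.lean`),
and the functions `j ∘ repA x` are pairwise distinct.
-/
import Fermat.Agent.S48.Kum.M4b1
import Fermat.Agent.S48.H548.KumHP
import Fermat.Agent.S29.H452.NormCoset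

set_option autoImplicit false

noncomputable section

open CongruenceSubgroup UpperHalfPlane ModularForm Matrix.SpecialLinearGroup
open scoped MatrixGroups Manifold OnePoint

namespace Fermat.Agent.S48.H569

open Fermat.Agent.S24 Fermat.Agent.S24.H997 Fermat.Agent.S48.H548 Fermat.Agent.S48.Kum
open Fermat.Agent.S20.L1 (jFun)

variable {M : ℕ} [NeZero M] {p : ℕ} [Fact p.Prime]

/-! ### Transitivity of `Γ₁(M)` on `ℙ¹(𝔽_p)` -/

/-- `Γ₁(M)` acts transitively on `ℙ¹(𝔽_p)` for `p ∤ M`. -/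
theorem exists_gamma1_smul_infty (hpM : ¬ p ∣ M) (y : OnePoint (ZMod p)) :
    ∃ γ : Gamma1 M, redMatrix p (γ : SL(2, ℤ)) • (∞ : OnePoint (ZMod p)) = y := by
  induction y using OnePoint.rec with
  | infty =>
    refine ⟨1, ?_⟩
    rw [Subgroup.coe_one, redMatrix_one548, one_smul]
  | coe j =>
    have hMp : ((M : ℕ) : ZMod p) ≠ 0 := by
      intro h0
      exact hpM ((ZMod.natCast_eq_zero_iff M p).mp h0)
    set k : ℤ := (((j - ((M : ℕ) : ZMod p)⁻¹).val : ℕ) : ℤ) with hk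
    let γ : SL(2, ℤ) := ⟨!![1, k; (M : ℤ), 1 + (M : ℤ) * k], by
      rw [Matrix.det_fin_two_of]; ring⟩
    have h00 : γ 0 0 = 1 := rfl
    have h01 : γ 0 1 = k := rfl
    have h10 : γ 1 0 = (M : ℤ) := rfl
    have h11 : γ 1 1 = 1 + (M : ℤ) * k := rfl
    have hγ : γ ∈ Gamma1 M := by
      refine mem_Gamma1_of_lower γ ?_ ?_
      · rw [h10]; simp
      · rw [h11]; simp
    refine ⟨⟨γ, hγ⟩, ?_⟩
    rw [OnePoint.smul_infty_eq_ite]
    have e10 : (redMatrix p γ) 1 0 = ((M : ℕ) : ZMod p) := by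
      rw [redMatrix_apply_one_zero, h10]; simp
    have e00 : (redMatrix p γ) 0 0 = 1 + ((M : ℕ) : ZMod p) * (j - ((M : ℕ) : ZMod p)⁻¹) := by
      rw [redMatrix_apply_zero_zero, h11, hk]
      push_cast
      rw [ZMod.natCast_zmod_val]
    show (if (redMatrix p γ) 1 0 = 0 then (∞ : OnePoint (ZMod p))
      else (((redMatrix p γ) 0 0 / (redMatrix p γ) 1 0 : ZMod p) : OnePoint (ZMod p))) = j
    rw [e10, if_neg hMp, e00]
    congr 1
    field_simp
    ring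

/-- The chosen `γ_x ∈ Γ₁(M)` with `γ_x • ∞ = x`. -/
def gamX (hpM : ¬ p ∣ M) (x : OnePoint (ZMod p)) : Gamma1 M :=
  (exists_gamma1_smul_infty hpM x).choose

theorem gamX_spec (hpM : ¬ p ∣ M) (x : OnePoint (ZMod p)) :
    redMatrix p ((gamX hpM x : Gamma1 M) : SL(2, ℤ)) • (∞ : OnePoint (ZMod p)) = x :=
  (exists_gamma1_smul_infty hpM x).choose_spec

/-- The chosen `δ_x ∈ Γ₁(M)` with `diag(p,1) γ_x = δ_x repA x`. -/
def delX (hpM : ¬ p ∣ M) (x : OnePoint (ZMod p)) : Gamma1 M :=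
  conjΓ (Gamma1 M) (sigmaP M p hpM)⁻¹ (sigmaP_inv_conj_mem hpM) (trf1 hpM (gamX hpM x) ∞)

/-- `diag(p,1) · γ_x = δ_x · repA x`. -/
theorem heckeDiag_mul_gamX (hpM : ¬ p ∣ M) (x : OnePoint (ZMod p)) :
    heckeDiagMatrix p * mapGL ℝ ((gamX hpM x : Gamma1 M) : SL(2, ℤ))
      = mapGL ℝ ((delX hpM x : Gamma1 M) : SL(2, ℤ)) * repA hpM x := by
  have h := trf1_spec hpM (gamX hpM x) (∞ : OnePoint (ZMod p))
  rw [gamX_spec hpM x] at h
  have h1 : heckeRep1 hpM (∞ : OnePoint (ZMod p))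
      = mapGL ℝ (sigmaP M p hpM) * heckeDiagMatrix p := rfl
  rw [h1] at h
  have h2 : heckeDiagMatrix p * mapGL ℝ ((gamX hpM x : Gamma1 M) : SL(2, ℤ))
      = (mapGL ℝ (sigmaP M p hpM))⁻¹ *
        (mapGL ℝ ((trf1 hpM (gamX hpM x) ∞ : Gamma1 M) : SL(2, ℤ)) * heckeRep1 hpM x) := by
    rw [← h]
    group
  rw [h2]
  show _ = mapGL ℝ ((sigmaP M p hpM)⁻¹ * ((trf1 hpM (gamX hpM x) ∞ : Gamma1 M) : SL(2, ℤ)) *
    ((sigmaP M p hpM)⁻¹)⁻¹) * (mapGL ℝ (sigmaP M p hpM)⁻¹ * heckeRep1 hpM x)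
  rw [inv_inv, map_mul, map_mul, map_inv]
  group

/-! ### The functions `j ∘ repA x` are pairwise distinct -/

/-- The two copies of the Hecke representatives agree. -/
theorem heckeRep_eq_prelude (x : OnePoint (ZMod p)) :
    Fermat.Agent.S48.H548.heckeRep p x =
      P2MW.S_ModularForm_heckeT_slash_eq_self_of_mem_Gamma0.ModularForm.HeckeSlashInvariance.heckeRep
        p x := by
  induction x using OnePoint.rec with
  | infty => rfl
  | coe j => rfl

theorem jFun_repA_smul (hpM : ¬ p ∣ M) (x : OnePoint (ZMod p)) (τ : ℍ) :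
    jFun (repA hpM x • τ) = jFun (Fermat.Agent.S48.H548.heckeRep p x • τ) := by
  unfold repA heckeRep1
  rw [mul_smul, mul_smul, ← SL_smul_eq_mapGL_smul548, ← SL_smul_eq_mapGL_smul548, jFun_smul',
    jFun_smul']

theorem Jd_eq_heckeDiag (τ : ℍ) : haveI : NeZero p := ⟨(Fact.out : p.Prime).ne_zero⟩
    Jd (1 * p) τ = jFun (heckeDiagMatrix p • τ) := by
  have hp : 0 < p := (Fact.out : p.Prime).pos
  show jFun (infAff (1 * p) 0 1 τ) = jFun (heckeDiagMatrix p • τ)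
  congr 1
  apply UpperHalfPlane.ext
  rw [infAff_coe (by simpa using hp) one_pos, ModularForm.coe_heckeDiagMatrix_smul hp.ne']
  push_cast
  ring

/-- **Distinctness**: the functions `j ∘ repA x`, `x ∈ ℙ¹(𝔽_p)`, are pairwise distinct. -/
theorem jFun_repA_injective (hpM : ¬ p ∣ M) {x y : OnePoint (ZMod p)}
    (h : ∀ τ : ℍ, jFun (repA hpM x • τ) = jFun (repA hpM y • τ)) : x = y := by
  haveI : NeZero p := ⟨(Fact.out : p.Prime).ne_zero⟩
  have hcop : Nat.Coprime 1 p := Nat.coprime_one_left p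
  have key : ∀ (z : OnePoint (ZMod p)) (τ : ℍ),
      jFun (repA hpM z • τ) = Jd (1 * p) (Fermat.Agent.S29.H452.repγ 1 p hcop z • τ) := by
    intro z τ
    rw [jFun_repA_smul, Jd_eq_heckeDiag, heckeRep_eq_prelude]
    have e := Fermat.Agent.S29.H452.repγ_mul hcop z
    have e2 := congrArg (fun g : GL (Fin 2) ℝ => jFun (g • τ)) e
    simp only [mul_smul] at e2
    rw [← SL_smul_eq_mapGL_smul548, ← SL_smul_eq_mapGL_smul548, jFun_smul'] at e2
    exact e2.symm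
  apply Fermat.Agent.S29.H452.repγ_injective (N := 1) (Fact.out : p.Prime) hcop
  apply Jd_distinct (1 * p)
  intro τ
  have h1 := h ((Fermat.Agent.S29.H452.repγ 1 p hcop y)⁻¹ • τ)
  rw [key x, key y, smul_inv_smul] at h1
  rw [mul_smul]
  exact h1

end Fermat.Agent.S48.H569
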