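/-
S48 / RES (Tower A1), node A1-KUM, leaf `norm` — part 3 (helper569): THE ANALYTIC NORM FORMULA.

  `normAn1_of : DictMero (Γ₁(M)) (ℚ̄·F₁(M)) → FiniteAlong α → [F₁(M;p) : F₁(M)] ≤ p + 1
                  → Kum.NormAn1 M p hpM`                    (`α = alpha1`, `β = beta1`)

i.e. if `G` realises `u ∈ ℚ̄·F₁(M)` then `∏ₓ G ∘ repA x` realises `Norm_α (β u)`.

Proof (port of `S29/H452`): analytic realisations `an : ℚ̄·F₁(M) → MerH`, `an' : ℚ̄·F₁(M;p) → MerH`
(generic `anOf`, `AnGen.lean`), the `p + 1` embeddings `τ_x = (· ∘ γ_x) ∘ an'` over `α`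
(`γ_x ∈ Γ₁(M)`, `diag(p,1) γ_x = δ_x repA x`, `NormRep.lean`), pairwise distinct because the
functions `j ∘ repA x` are; `H455.norm_eq_prod_of_injective`; growth of the product from
`H548.heckeProd1_expGrowth`.
-/
import Fermat.Agent.S48.H569.AnGen
import Fermat.Agent.S48.H569.NormRep
import Fermat.Agent.S29.H455.NormEmb
import Fermat.Agent.S29.H642.K2
import Fermat.Agent.S24.Deg.H457_Bridge

set_option autoImplicit false
set_option linter.style.haveILetI false
set_option linter.unusedSectionVars false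

noncomputable section

open CongruenceSubgroup UpperHalfPlane ModularForm Matrix.SpecialLinearGroup ModularCurve
  AlgebraicCurve
open scoped MatrixGroups Manifold OnePoint

namespace Fermat.Agent.S48.H569

open Fermat.Agent.S24 Fermat.Agent.S24.H997 Fermat.Agent.S24.H624 Fermat.Agent.S24.H708
open Fermat.Agent.S29 Fermat.Agent.S29.H452 Fermat.Agent.S48.H548 Fermat.Agent.S48.Kum
open Fermat.Agent.S48.F1
open Fermat.Agent.S20.L1 (jFun)

local notation "Qbar" => AlgebraicClosure ℚ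

/-! ### The coefficient embedding of a function field -/

/-- `u ↦ ι(u) ∈ ℂ((q))` on a function field `F ⊆ ℚ̄((q))`. -/
def kap (F : KF) : F →+* LaurentSeries ℂ :=
  (coeffMap Deg457.iotaC).comp (algebraMap F (LaurentSeries Kbar))

@[simp] theorem kap_apply (F : KF) (u : F) :
    kap F u = coeffMap Deg457.iotaC ((u : F) : LaurentSeries Kbar) := rfl

/-- Constants are `q`-expansions. -/
theorem C_mem_fieldRange (c : ℂ) :
    algebraMap ℂ (LaurentSeries ℂ) c ∈ epsQ.fieldRange := by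
  have h : HasQExp 1 (fun _ : ℍ => c) (HahnSeries.C c) := HasQExp.const 1 c
  refine ⟨algebraMap qRing QF (toQ _ h), ?_⟩
  rw [epsQ_algebraMap, qexpHom_toQ, algebraMap_laurentSeries_eq_single]
  rfl

section Mero

variable {Γ : Subgroup SL(2, ℤ)} {F : KF}

/-- DICT-MERO implies that every element of `F` is a quotient of `q`-expansions. -/
theorem kap_mem_of_mero (hT : ModularGroup.T ∈ Γ) (hmero : DictMero Γ F) (u : F) :
    kap F u ∈ epsQ.fieldRange := by
  obtain ⟨u₁, u₂, G₁, G₂, hu₂, hmul, h₁, h₂⟩ := hmero u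
  have hq₁ := h₁.hasQExp hT
  have hq₂ := h₂.hasQExp hT
  have h0 : coeffMap Deg457.iotaC ((u₂ : F) : LaurentSeries Kbar) ≠ 0 := by
    intro h0
    apply hu₂
    apply Subtype.ext
    apply Fermat.Agent.S29.M4b.H822.coeffMap_iotaC_injective
    rw [h0]
    exact (map_zero (coeffMap Deg457.iotaC)).symm
  refine mem_fieldRange_of_div hq₁ hq₂ h0 ?_
  rw [kap_apply, ← map_mul, ← hmul]
  rfl

/-- The analytic realisation of `F`. -/
def anF (hT : ModularGroup.T ∈ Γ) (hmero : DictMero Γ F) : F →+* MerH :=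
  anOf (kap F) (kap_mem_of_mero hT hmero)

/-- `anF u = [G]` if `G` realises `u`. -/
theorem anF_of_realises (hT : ModularGroup.T ∈ Γ) (hmero : DictMero Γ F) {u : F} {G : ℍ → ℂ}
    (h : Realises Γ F u G) :
    anF hT hmero u = algebraMap holoRing MerH ⟨G, h.1.1⟩ :=
  anOf_eq_of_hasQExp (kap F) (kap_mem_of_mero hT hmero) (h.hasQExp hT)

/-- `anF u` is `Γ`-invariant. -/
theorem merGL_anF (hT : ModularGroup.T ∈ Γ) (hmero : DictMero Γ F) (u : F) {γ : SL(2, ℤ)}
    (hγ : γ ∈ Γ) :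
    merGL (mapGL ℝ γ) (det_coe_SL_pos γ) (anF hT hmero u) = anF hT hmero u := by
  obtain ⟨u₁, u₂, G₁, G₂, hu₂, hmul, h₁, h₂⟩ := hmero u
  have hinv : ∀ {v : F} {G : ℍ → ℂ}, Realises Γ F v G →
      merGL (mapGL ℝ γ) (det_coe_SL_pos γ) (anF hT hmero v) = anF hT hmero v := by
    intro v G h
    rw [anF_of_realises hT hmero h, merGL_algebraMap]
    congr 1
    apply Subtype.ext
    funext τ
    exact h.1.2.1 γ hγ τ
  have h2 : anF hT hmero u₂ ≠ 0 := (map_ne_zero (anF hT hmero)).mpr hu₂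
  have hu : anF hT hmero u = anF hT hmero u₁ / anF hT hmero u₂ := by
    rw [← hmul, map_mul, mul_div_assoc, div_self h2, mul_one]
  rw [hu, map_div₀, hinv h₁, hinv h₂]

end Mero

/-! ### The function field of `X₁(M; p)` -/

section Level

variable {M : ℕ} [NeZero M] {p : ℕ} [Fact p.Prime]

theorem coeffEmb_mem_of_mem_F1 (hmero : DictMero (Gamma1 M) (F1Bar M)) {z : LaurentSeries ℚ}
    (hz : z ∈ F1 M) : coeffEmb ℂ z ∈ epsQ.fieldRange := by
  have h := kap_mem_of_mero (T_mem_Gamma1 M) hmero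
    ⟨coeffEmb Qbar z, coeffEmb_mem_laurentBaseChange Qbar hz⟩
  rw [kap_apply] at h
  rwa [Deg457.coeffMap_coeffEmb'] at h

/-- The subfield of `ℚ((q))` of series whose image in `ℂ((q))` is a quotient of
`q`-expansions, as an intermediate field. -/
def qSub : IntermediateField ℚ (LaurentSeries ℚ) :=
  (epsQ.fieldRange.comap (coeffEmb ℂ)).toIntermediateField (fun r => by
    show coeffEmb ℂ (algebraMap ℚ (LaurentSeries ℚ) r) ∈ epsQ.fieldRange
    have h : coeffEmb ℂ (algebraMap ℚ (LaurentSeries ℚ) r)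
        = algebraMap ℂ (LaurentSeries ℂ) (algebraMap ℚ ℂ r) := by
      rw [algebraMap_laurentSeries_eq_single, algebraMap_laurentSeries_eq_single, coeffEmb,
        coeffMap_single]
    rw [h]
    exact C_mem_fieldRange _)

theorem mem_qSub {z : LaurentSeries ℚ} : z ∈ qSub ↔ coeffEmb ℂ z ∈ epsQ.fieldRange := Iff.rfl

theorem F1p_le_qSub (hmero : DictMero (Gamma1 M) (F1Bar M)) :
    haveI : NeZero p := ⟨(Fact.out : p.Prime).ne_zero⟩
    F1p M p ≤ qSub := by
  haveI : NeZero p := ⟨(Fact.out : p.Prime).ne_zero⟩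
  refine sup_le (fun z hz => coeffEmb_mem_of_mem_F1 hmero hz) ?_
  rintro z hz
  obtain ⟨z₀, hz₀, rfl⟩ := (IntermediateField.mem_map _).1 hz
  rw [mem_qSub]
  show coeffEmb ℂ (qExpand ℚ p z₀) ∈ epsQ.fieldRange
  rw [← F1.qExpand_coeffEmb]
  exact qExpand_mem_fieldRange p (coeffEmb_mem_of_mem_F1 hmero hz₀)

/-- Every element of `ℚ̄·F₁(M;p)` is a quotient of `q`-expansions. -/
theorem kap_mem_F1p (hmero : DictMero (Gamma1 M) (F1Bar M)) :
    haveI : NeZero p := ⟨(Fact.out : p.Prime).ne_zero⟩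
    ∀ v : F1pL Qbar M p, kap (F1pL Qbar M p) v ∈ epsQ.fieldRange := by
  haveI : NeZero p := ⟨(Fact.out : p.Prime).ne_zero⟩
  rintro ⟨v, hv⟩
  rw [kap_apply]
  show coeffMap Deg457.iotaC v ∈ epsQ.fieldRange
  rw [mem_laurentBaseChange_iff] at hv
  have hle : Subfield.closure (Set.range (algebraMap Qbar (LaurentSeries Qbar)) ∪
      (⇑(coeffEmb Qbar) '' ((F1p M p : IntermediateField ℚ (LaurentSeries ℚ)) :
        Set (LaurentSeries ℚ)))) ≤ epsQ.fieldRange.comap (coeffMap Deg457.iotaC) := by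
    rw [Subfield.closure_le]
    rintro x (⟨c, rfl⟩ | ⟨z, hz, rfl⟩)
    · show coeffMap Deg457.iotaC (algebraMap Qbar (LaurentSeries Qbar) c) ∈ epsQ.fieldRange
      have h : coeffMap Deg457.iotaC (algebraMap Qbar (LaurentSeries Qbar) c)
          = algebraMap ℂ (LaurentSeries ℂ) (Deg457.iotaC c) := by
        rw [algebraMap_laurentSeries_eq_single, algebraMap_laurentSeries_eq_single,
          coeffMap_single]
      rw [h]
      exact C_mem_fieldRange _
    · show coeffMap Deg457.iotaC (coeffEmb Qbar z) ∈ epsQ.fieldRange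
      rw [Deg457.coeffMap_coeffEmb']
      exact F1p_le_qSub hmero hz
  exact hle hv

end Level

/-! ### The embeddings `τ_x` and the norm formula in `MerH` -/

/-- `p ≠ 0` for a prime `p` (the instance used by `Kum.NormAn1`). -/
theorem neZeroOfFact (p : ℕ) [Fact p.Prime] : NeZero p := ⟨(Fact.out : p.Prime).ne_zero⟩

attribute [local instance] neZeroOfFact

section Norm

variable {M : ℕ} [NeZero M] {p : ℕ} [Fact p.Prime] (hpM : ¬ p ∣ M)
  (hmero : DictMero (Gamma1 M) (F1Bar M))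

/-- The analytic realisation of `ℚ̄·F₁(M)`. -/
def an1 : F1Bar M →+* MerH := anF (T_mem_Gamma1 M) hmero

/-- The analytic realisation of `ℚ̄·F₁(M;p)`. -/
def an1p : F1pL Qbar M p →+* MerH := anOf (kap (F1pL Qbar M p)) (kap_mem_F1p hmero)

theorem an1p_alpha (u : F1Bar M) : an1p (p := p) hmero (alpha1 Qbar M p u) = an1 hmero u := by
  refine anOf_congr (kap (F1Bar M)) (kap (F1pL Qbar M p)) _ _ ?_
  rw [kap_apply, kap_apply, coe_alpha1]

theorem an1p_beta (u : F1Bar M) :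
    an1p (p := p) hmero (beta1 Qbar M p u)
      = merGL (heckeDiagMatrix p) (det_heckeDiag_pos p) (an1 hmero u) := by
  obtain ⟨a, b, φa, φb, ha, hb, hb0, hmul, han⟩ :=
    exists_anOf_eq_div (kap (F1Bar M)) (kap_mem_of_mero (T_mem_Gamma1 M) hmero) u
  have hkb : kap (F1pL Qbar M p) (beta1 Qbar M p u) = qExpand ℂ p (kap (F1Bar M) u) := by
    rw [kap_apply, kap_apply, coe_beta1, coeffMap_qExpand_aux]
  have h1 : kap (F1pL Qbar M p) (beta1 Qbar M p u) * qExpand ℂ p φb = qExpand ℂ p φa := by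
    rw [hkb, ← map_mul, hmul]
  have h2 := anOf_eq_div (kap (F1pL Qbar M p)) (kap_mem_F1p hmero)
    (hasQExp_comp_heckeDiag p ha) (hasQExp_comp_heckeDiag p hb)
    ((map_ne_zero (qExpand ℂ p)).mpr hb0) h1
  show anOf (kap (F1pL Qbar M p)) (kap_mem_F1p hmero) (beta1 Qbar M p u) = _
  rw [h2]
  show _ = merGL (heckeDiagMatrix p) (det_heckeDiag_pos p)
    (anOf (kap (F1Bar M)) (kap_mem_of_mero (T_mem_Gamma1 M) hmero) u)
  rw [han, map_div₀, merGL_algebraMap, merGL_algebraMap]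
  rfl

/-- The embedding `τ_x = (· ∘ γ_x) ∘ an'` of `ℚ̄·F₁(M;p)` into `MerH`. -/
def tauX (x : OnePoint (ZMod p)) : F1pL Qbar M p →+* MerH :=
  ((merGL (mapGL ℝ ((gamX hpM x : Gamma1 M) : SL(2, ℤ))) (det_coe_SL_pos _) : MerH ≃+* MerH) :
    MerH →+* MerH).comp (an1p hmero)

theorem tauX_apply (x : OnePoint (ZMod p)) (v : F1pL Qbar M p) :
    tauX hpM hmero x v
      = merGL (mapGL ℝ ((gamX hpM x : Gamma1 M) : SL(2, ℤ))) (det_coe_SL_pos _)
          (an1p hmero v) := rfl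

theorem tauX_alpha (x : OnePoint (ZMod p)) (u : F1Bar M) :
    tauX hpM hmero x (alpha1 Qbar M p u) = an1 hmero u := by
  rw [tauX_apply, an1p_alpha]
  exact merGL_anF (T_mem_Gamma1 M) hmero u (gamX hpM x).2

theorem tauX_beta (x : OnePoint (ZMod p)) (u : F1Bar M) :
    tauX hpM hmero x (beta1 Qbar M p u)
      = merGL (repA hpM x) (det_repA_pos hpM x) (an1 hmero u) := by
  rw [tauX_apply, an1p_beta,
    ← merGL_mul (heckeDiagMatrix p) (mapGL ℝ ((gamX hpM x : Gamma1 M) : SL(2, ℤ)))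
      (det_heckeDiag_pos p) (det_coe_SL_pos _),
    merGL_congr (heckeDiag_mul_gamX hpM x) _
      (det_mul_pos (det_coe_SL_pos ((delX hpM x : Gamma1 M) : SL(2, ℤ))) (det_repA_pos hpM x)),
    merGL_mul (mapGL ℝ ((delX hpM x : Gamma1 M) : SL(2, ℤ))) (repA hpM x) (det_coe_SL_pos _)
      (det_repA_pos hpM x)]
  congr 1
  exact merGL_anF (T_mem_Gamma1 M) hmero u (delX hpM x).2

/-- The element `j ∈ ℚ̄·F₁(M)`. -/
def jF1 (M : ℕ) : F1Bar M :=
  ⟨coeffEmb Qbar jq, coeffEmb_mem_laurentBaseChange Qbar (jq_mem_F1 M)⟩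

theorem hasQExp_jFun : HasQExp 1 jFun (coeffEmb ℂ jq) := by
  have h := Deg457.hasQExp_jFun_scale 1
  rw [qExpand_one_apply] at h
  have e : (fun τ => Fermat.Agent.S24.JFun.jFun (Deg457.scaleH 1 τ)) = jFun := by
    funext τ
    show Fermat.Agent.S24.JFun.jFun (Deg457.scaleH 1 τ) = Fermat.Agent.S24.JFun.jFun τ
    congr 1
    apply UpperHalfPlane.ext
    rw [Deg457.coe_scaleH]
    simp
  rwa [e] at h

theorem an1_jF1 : an1 hmero (jF1 M) = algebraMap holoRing MerH ⟨jFun, hasQExp_jFun.mdiff⟩ := by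
  refine anOf_eq_of_hasQExp (kap (F1Bar M)) (kap_mem_of_mero (T_mem_Gamma1 M) hmero) ?_
  rw [kap_apply]
  show HasQExp 1 jFun (coeffMap Deg457.iotaC (coeffEmb Qbar jq))
  rw [Deg457.coeffMap_coeffEmb']
  exact hasQExp_jFun

theorem tauX_injective : Function.Injective (tauX hpM hmero) := by
  intro x y hxy
  apply jFun_repA_injective hpM
  have h1 := RingHom.congr_fun hxy (beta1 Qbar M p (jF1 M))
  rw [tauX_beta, tauX_beta, an1_jF1, merGL_algebraMap, merGL_algebraMap] at h1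
  have h2 := IsFractionRing.injective holoRing MerH h1
  intro τ
  exact congrFun (congrArg Subtype.val h2) τ

/-- **Norm formula in `MerH`**: `an (Norm_α (β u)) = ∏ₓ (an u) ∘ repA x`. -/
theorem an1_normAlong_beta (hfin : FiniteAlong Qbar (alpha1 Qbar M p))
    (hdeg : letI := algebraAlong (alpha1 Qbar M p)
      Module.finrank (F1Bar M) (F1pL Qbar M p) ≤ p + 1) (u : F1Bar M) :
    an1 hmero (H455.normAlong (alpha1 Qbar M p) (beta1 Qbar M p u))
      = ∏ x : OnePoint (ZMod p), merGL (repA hpM x) (det_repA_pos hpM x) (an1 hmero u) := by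
  letI := algebraAlong (alpha1 Qbar M p)
  haveI : Module.Finite (F1Bar M) (F1pL Qbar M p) := hfin
  have hτ : ∀ x, (tauX hpM hmero x).comp (algebraMap (F1Bar M) (F1pL Qbar M p)) = an1 hmero :=
    fun x => RingHom.ext fun f => tauX_alpha hpM hmero x f
  have hinj := tauX_injective hpM hmero
  have hcardI : Fintype.card (OnePoint (ZMod p)) = p + 1 := by
    show Fintype.card (Option (ZMod p)) = p + 1
    rw [Fintype.card_option, ZMod.card]
  have hge : Fintype.card (OnePoint (ZMod p)) ≤ Module.finrank (F1Bar M) (F1pL Qbar M p) := by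
    letI : Algebra (F1Bar M) MerH := (an1 hmero).toAlgebra
    have hinj' : Function.Injective (H455.NormEmb_lift (an1 hmero) (tauX hpM hmero) hτ) := by
      intro i i' h
      apply hinj
      ext v
      have := DFunLike.congr_fun h v
      rw [H455.NormEmb_lift_apply, H455.NormEmb_lift_apply] at this
      exact (algebraMap MerH (AlgebraicClosure MerH)).injective this
    have h1 := Fintype.card_le_of_injective _ hinj'
    rwa [AlgHom.card (F1Bar M) (F1pL Qbar M p) (AlgebraicClosure MerH)] at h1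
  have hcard : Fintype.card (OnePoint (ZMod p)) = Module.finrank (F1Bar M) (F1pL Qbar M p) :=
    le_antisymm hge (hcardI ▸ hdeg)
  have key := H455.norm_eq_prod_of_injective (an1 hmero) (tauX hpM hmero) hτ hinj hcard
    (beta1 Qbar M p u)
  refine Eq.trans key (Finset.prod_congr rfl fun x _ => tauX_beta hpM hmero x u)

end Norm

/-! ### Good functions for `Γ₁(M)` and the Hecke product -/

section Good

variable {M : ℕ} [NeZero M]

theorem conj_T_zpow_mem_Gamma1 (M : ℕ) (g : SL(2, ℤ)) :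
    g * ModularGroup.T ^ (M : ℤ) * g⁻¹ ∈ Gamma1 M := by
  have h1 : ModularGroup.T ^ (M : ℤ) ∈ Gamma M := by
    rw [Gamma_mem, ModularGroup.coe_T_zpow]
    simp
  have h2 := (Gamma_normal M).conj_mem _ h1 g
  rw [Gamma_mem] at h2
  rw [Gamma1_mem]
  exact ⟨h2.1, h2.2.2.2, h2.2.2.1⟩

theorem periodic_compSL {G : ℍ → ℂ} (hG : IsGood (Gamma1 M) G) (g : SL(2, ℤ)) :
    Function.Periodic (compSL g G ∘ ofComplex) (M : ℝ) := by
  intro w
  by_cases hw : 0 < Complex.im w
  · have hw' : 0 < Complex.im (w + (((M : ℕ) : ℝ) : ℂ)) := by simpa using hw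
    simp only [Function.comp_apply, ofComplex_apply_of_im_pos hw', ofComplex_apply_of_im_pos hw]
    show G (g • (⟨w + (((M : ℕ) : ℝ) : ℂ), hw'⟩ : ℍ)) = G (g • (⟨w, hw⟩ : ℍ))
    have e : (⟨w + (((M : ℕ) : ℝ) : ℂ), hw'⟩ : ℍ) = ModularGroup.T ^ (M : ℤ) • (⟨w, hw⟩ : ℍ) := by
      apply UpperHalfPlane.ext
      rw [UpperHalfPlane.modular_T_zpow_smul, UpperHalfPlane.coe_vadd]
      simp [add_comm]
    rw [e, ← hG.2.1 _ (conj_T_zpow_mem_Gamma1 M g) (g • (⟨w, hw⟩ : ℍ)), ← mul_smul, ← mul_smul]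
    congr 2
    group
  · have hw0 : Complex.im w ≤ 0 := not_lt.mp hw
    have hw' : Complex.im (w + (((M : ℕ) : ℝ) : ℂ)) ≤ 0 := by simpa using hw0
    simp only [Function.comp_apply]
    rw [ofComplex_apply_of_im_nonpos hw', ofComplex_apply_of_im_nonpos hw0]

/-- A good function for `Γ₁(M)` lies in S24's ring `holN M`. -/
theorem mem_holN_of_isGood {G : ℍ → ℂ} (hG : IsGood (Gamma1 M) G) : G ∈ holN M := by
  refine ⟨hG.1, fun g => ?_⟩
  have hol : MDiff (compSL g G) := (precompSL g ⟨G, hG.1⟩).2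
  have hmer : IsMerInf M (compSL g G) :=
    ⟨hol, periodic_compSL hG g, Fermat.Agent.S29.H642.K2_isBounded_mul_qh_pow (hG.2.2 g)⟩
  exact ⟨qexpFun M (compSL g G), fun τ => (HasQExp.of_isMerInf hmer).hasSum τ⟩

variable {p : ℕ} [Fact p.Prime]

/-- The product over the representatives `repA x` is the Hecke product of `G ∘ σ_p⁻¹`. -/
theorem prod_repA_eq (hpM : ¬ p ∣ M) (G : ℍ → ℂ) :
    (fun τ => ∏ x : OnePoint (ZMod p), G (repA hpM x • τ))
      = heckeProd1 hpM (compSL (sigmaP M p hpM)⁻¹ G) := by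
  funext τ
  rw [heckeProd1_apply]
  refine Finset.prod_congr rfl fun x _ => ?_
  unfold repA
  rw [mul_smul]
  rfl

/-- **Goodness of the Hecke product.** -/
theorem isGood_prod_repA (hpM : ¬ p ∣ M) {G : ℍ → ℂ} (hG : IsGood (Gamma1 M) G) :
    IsGood (Gamma1 M) (fun τ => ∏ x : OnePoint (ZMod p), G (repA hpM x • τ)) := by
  have hU : compSL (sigmaP M p hpM)⁻¹ G ∈ holN M := comp_mem_holN M _ G (mem_holN_of_isGood hG)
  have hinv : ∀ (γ : Gamma1 M) (τ : ℍ),
      compSL (sigmaP M p hpM)⁻¹ G ((γ : SL(2, ℤ)) • τ) = compSL (sigmaP M p hpM)⁻¹ G τ := by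
    intro γ τ
    show G ((sigmaP M p hpM)⁻¹ • ((γ : SL(2, ℤ)) • τ)) = G ((sigmaP M p hpM)⁻¹ • τ)
    rw [← hG.2.1 _ (sigmaP_inv_conj_mem hpM γ γ.2) ((sigmaP M p hpM)⁻¹ • τ), ← mul_smul,
      ← mul_smul]
    congr 2
    group
  rw [prod_repA_eq]
  exact ⟨mdiff_heckeProd1 hpM hU.1, fun γ hγ τ => heckeProd1_invariant hpM hinv ⟨γ, hγ⟩ τ,
    fun g => heckeProd1_expGrowth hpM hU g⟩

end Good

/-! ### The leaf -/

section Leaf

variable {M : ℕ} [NeZero M] {p : ℕ} [Fact p.Prime]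

/-- **Leaf `norm` of sub-tower A1-KUM** (`Kum.NormAn1`), from DICT-MERO and the degree of
`ℚ̄·F₁(M;p)` over `ℚ̄·F₁(M)`. -/
theorem normAn1_of (hpM : ¬ p ∣ M) (hmero : DictMero (Gamma1 M) (F1Bar M))
    (hfin : FiniteAlong Qbar (alpha1 Qbar M p))
    (hdeg : letI := algebraAlong (alpha1 Qbar M p)
      Module.finrank (F1Bar M) (F1pL Qbar M p) ≤ p + 1) :
    NormAn1 M p hpM := by
  intro u G hu
  have hT := T_mem_Gamma1 M
  have hP : IsGood (Gamma1 M) (fun τ => ∏ x : OnePoint (ZMod p), G (repA hpM x • τ)) :=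
    isGood_prod_repA hpM hu.1
  have hPq := hP.hasQExp hT
  refine ⟨hP, ?_⟩
  have hn := an1_normAlong_beta hpM hmero hfin hdeg u
  have hu' : an1 hmero u = algebraMap holoRing MerH ⟨G, hu.1.1⟩ :=
    anF_of_realises hT hmero hu
  have hprod : ∏ x : OnePoint (ZMod p), merGL (repA hpM x) (det_repA_pos hpM x) (an1 hmero u)
      = algebraMap holoRing MerH
          ⟨fun τ => ∏ x : OnePoint (ZMod p), G (repA hpM x • τ), hPq.mdiff⟩ := by
    rw [hu']
    simp only [merGL_algebraMap]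
    rw [← map_prod]
    congr 1
    apply Subtype.ext
    funext τ
    rw [SubmonoidClass.coe_finsetProd, Finset.prod_apply]
    rfl
  rw [hprod] at hn
  exact (kappa_eq_of_anOf_eq (kap (F1Bar M)) (kap_mem_of_mero hT hmero) hPq hn).symm

end Leaf

end Fermat.Agent.S48.H569
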